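import Mathlib

/-!
# The theorem of Ax and Katz: digits

`q = p ^ f`.  The weights `wt p f r k = ∑ d_l p ^ ((l + r) mod f)` of `k = ∑ d_l p ^ l` (digits in
base `p`) are subadditive, congruent to `p ^ r k` modulo `q - 1`, and their sum over `r < f` is the
digit sum times `(q - 1) / (p - 1)`.
-/

namespace Fermat.Agent.Cor.AxK

open Finset

/-- the digit sum of `k` in base `p` -/
def ds (p k : ℕ) : ℕ := (Nat.digits p k).sum

/-- the weight of a list of digits -/
def wl (p f : ℕ) : ℕ → List ℕ → ℕ
  | _, [] => 0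
  | r, d :: L => d * p ^ (r % f) + wl p f (r + 1) L

/-- the weight of `k` with the shift `r` -/
def wt (p f r k : ℕ) : ℕ := wl p f r (Nat.digits p k)

variable {p f : ℕ}

theorem wt_zero (r : ℕ) : wt p f r 0 = 0 := by simp [wt, wl]

theorem ds_zero : ds p 0 = 0 := by simp [ds]

theorem wt_rec (hp : 2 ≤ p) (r k : ℕ) :
    wt p f r k = (k % p) * p ^ (r % f) + wt p f (r + 1) (k / p) := by
  rcases Nat.eq_zero_or_pos k with rfl | hk
  · simp [wt_zero]
  · rw [wt, Nat.digits_def' (by omega) hk, wl, wt]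

theorem ds_rec (hp : 2 ≤ p) (k : ℕ) : ds p k = k % p + ds p (k / p) := by
  rcases Nat.eq_zero_or_pos k with rfl | hk
  · simp [ds_zero]
  · rw [ds, Nat.digits_def' (by omega) hk, List.sum_cons, ds]

theorem wt_one (hp : 2 ≤ p) (r : ℕ) : wt p f r 1 = p ^ (r % f) := by
  rw [wt_rec hp, Nat.mod_eq_of_lt (by omega), Nat.div_eq_of_lt (by omega), wt_zero]
  simp

theorem pow_mod_le (hp : 2 ≤ p) (r : ℕ) : p ^ ((r + 1) % f) ≤ p * p ^ (r % f) := by
  rw [← pow_succ']
  refine Nat.pow_le_pow_right (by omega) ?_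
  rw [Nat.add_mod]
  refine (Nat.mod_le _ _).trans ?_
  have := Nat.mod_le 1 f
  omega

theorem wt_add_le (hp : 2 ≤ p) (a b r : ℕ) :
    wt p f r (a + b) ≤ wt p f r a + wt p f r b := by
  induction h : a + b using Nat.strong_induction_on generalizing a b r with
  | _ n ih =>
    subst h
    rcases Nat.eq_zero_or_pos a with rfl | ha
    · simp
    rcases Nat.eq_zero_or_pos b with rfl | hb
    · simp
    have ha' : a / p < a := Nat.div_lt_self ha hp
    have hb' : b / p < b := Nat.div_lt_self hb hp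
    have hp0 : 0 < p := by omega
    rw [wt_rec hp r (a + b), wt_rec hp r a, wt_rec hp r b, Nat.add_mod, Nat.add_div hp0]
    have i1 := ih (a / p + b / p) (by omega) (a / p) (b / p) (r + 1) rfl
    split_ifs with hc
    · have h1 : a % p < p := Nat.mod_lt _ hp0
      have h2 : b % p < p := Nat.mod_lt _ hp0
      have h3 : (a % p + b % p) % p = a % p + b % p - p := by
        rw [Nat.mod_eq_sub_mod hc, Nat.mod_eq_of_lt (by omega)]
      have i2 := ih (a / p + b / p + 1) (by omega) (a / p + b / p) 1 (r + 1) rfl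
      rw [wt_one hp] at i2
      have h4 := pow_mod_le (f := f) hp r
      rw [h3]
      obtain ⟨c, hc'⟩ : ∃ c, a % p + b % p = p + c := ⟨a % p + b % p - p, by omega⟩
      rw [hc', Nat.add_sub_cancel_left]
      have h5 : (a % p) * p ^ (r % f) + (b % p) * p ^ (r % f) =
          p * p ^ (r % f) + c * p ^ (r % f) := by
        rw [← add_mul, hc', add_mul]
      omega
    · have h3 : (a % p + b % p) % p = a % p + b % p := Nat.mod_eq_of_lt (by omega)
      rw [h3, add_zero, add_mul]
      omega

theorem wt_sum_le (hp : 2 ≤ p) {α : Type*} (S : Finset α) (g : α → ℕ) (r : ℕ) :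
    wt p f r (∑ a ∈ S, g a) ≤ ∑ a ∈ S, wt p f r (g a) := by
  classical
  induction S using Finset.induction_on with
  | empty => simp [wt_zero]
  | insert a S ha ih =>
    rw [sum_insert ha, sum_insert ha]
    exact (wt_add_le hp _ _ r).trans (Nat.add_le_add_left ih _)

theorem wt_mul_le (hp : 2 ≤ p) (c k r : ℕ) : wt p f r (c * k) ≤ c * wt p f r k := by
  induction c with
  | zero => simp [wt_zero]
  | succ c ih =>
    rw [add_mul, one_mul, add_mul, one_mul]
    exact (wt_add_le hp _ _ r).trans (Nat.add_le_add_right ih _)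

theorem pow_mod_modEq (hp : 2 ≤ p) (r : ℕ) : p ^ (r % f) ≡ p ^ r [MOD p ^ f - 1] := by
  have h1 : p ^ f ≡ 1 [MOD p ^ f - 1] :=
    (Nat.modEq_iff_dvd' (Nat.one_le_pow _ _ (by omega))).2 dvd_rfl |>.symm
  have h2 : p ^ r = (p ^ f) ^ (r / f) * p ^ (r % f) := by
    rw [← pow_mul, ← pow_add, Nat.div_add_mod]
  rw [h2]
  have h3 := (h1.pow (r / f)).mul_right (p ^ (r % f))
  rw [one_pow, one_mul] at h3
  exact h3.symm

theorem wt_modEq (hp : 2 ≤ p) (r k : ℕ) : wt p f r k ≡ p ^ r * k [MOD p ^ f - 1] := by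
  induction k using Nat.strong_induction_on generalizing r with
  | _ k ih =>
    rcases Nat.eq_zero_or_pos k with rfl | hk
    · simp [wt_zero, Nat.ModEq.refl]
    have h1 := ih (k / p) (Nat.div_lt_self hk hp) (r + 1)
    have h2 := (pow_mod_modEq (f := f) hp r).mul_left (k % p)
    rw [wt_rec hp]
    refine (h2.add h1).trans ?_
    have h3 : k % p * p ^ r + p ^ (r + 1) * (k / p) = p ^ r * k := by
      conv_rhs => rw [← Nat.mod_add_div k p]
      ring
    rw [h3]

theorem wt_pos (hp : 2 ≤ p) {k : ℕ} (hk : 0 < k) (r : ℕ) : 0 < wt p f r k := by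
  induction k using Nat.strong_induction_on generalizing r with
  | _ k ih =>
    rw [wt_rec hp]
    rcases Nat.eq_zero_or_pos (k % p) with h | h
    · have h1 : 0 < k / p := Nat.div_pos (Nat.le_of_dvd hk (Nat.dvd_of_mod_eq_zero h)) (by omega)
      have h2 := ih (k / p) (Nat.div_lt_self hk hp) h1 (r + 1)
      omega
    · have h1 : 0 < p ^ (r % f) := Nat.pow_pos (by omega)
      have h2 := Nat.mul_pos h h1
      omega

theorem le_wt (hp : 2 ≤ p) {k : ℕ} (hk : 0 < k) (hd : p ^ f - 1 ∣ k) (r : ℕ) :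
    p ^ f - 1 ≤ wt p f r k := by
  refine Nat.le_of_dvd (wt_pos hp hk r) ?_
  have h1 := wt_modEq (f := f) hp r k
  exact (Nat.modEq_zero_iff_dvd).1 (h1.trans (Nat.modEq_zero_iff_dvd.2 (hd.mul_left _)))

theorem wl_add (r : ℕ) (L : List ℕ) : wl p f (r + f) L = wl p f r L := by
  induction L generalizing r with
  | nil => rfl
  | cons d L ih =>
    rw [wl, wl, Nat.add_mod_right, Nat.add_right_comm, ih]

theorem sum_wl (L : List ℕ) : ∑ r ∈ range f, wl p f r L = L.sum * ∑ r ∈ range f, p ^ r := by
  induction L with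
  | nil => simp [wl]
  | cons d L ih =>
    simp only [wl, sum_add_distrib, List.sum_cons, add_mul]
    congr 1
    · rw [mul_sum]
      refine sum_congr rfl fun r hr => ?_
      rw [Nat.mod_eq_of_lt (mem_range.1 hr)]
    · rw [← ih]
      have h1 := sum_range_succ' (fun r => wl p f r L) f
      have h2 := sum_range_succ (fun r => wl p f r L) f
      have h3 : wl p f f L = wl p f 0 L := by
        have := wl_add (p := p) (f := f) 0 L
        rwa [zero_add] at this
      omega

theorem sum_wt (k : ℕ) : ∑ r ∈ range f, wt p f r k = ds p k * ∑ r ∈ range f, p ^ r := sum_wl _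

theorem ds_le_of_lt (hp : 2 ≤ p) {g n : ℕ} (hn : n < p ^ g) : ds p n ≤ g * (p - 1) := by
  induction g generalizing n with
  | zero =>
    have : n = 0 := by simpa using hn
    subst this
    simp [ds_zero]
  | succ g ih =>
    rw [ds_rec hp]
    have h1 : n / p < p ^ g := Nat.div_lt_of_lt_mul (by rwa [← pow_succ'])
    have h2 := ih h1
    have h3 : n % p < p := Nat.mod_lt _ (by omega)
    rw [add_mul, one_mul]
    omega

theorem ds_pow_mul (hp : 2 ≤ p) (k : ℕ) {n : ℕ} (hn : 0 < n) : ds p (p ^ k * n) = ds p n := by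
  rw [ds, Nat.digits_base_pow_mul (by omega) hn, List.sum_append, ds]
  simp

/-- Legendre's formula for multinomial coefficients -/
theorem sum_ds [Fact p.Prime] {α : Type*} (S : Finset α) (κ : α → ℕ) :
    ∑ a ∈ S, ds p (κ a) =
      ds p (∑ a ∈ S, κ a) + (p - 1) * padicValNat p (Nat.multinomial S κ) := by
  classical
  have hL : ∀ n : ℕ, (p - 1) * padicValNat p n.factorial + ds p n = n := by
    intro n
    have h1 := sub_one_mul_padicValNat_factorial (p := p) n
    have h2 := Nat.digit_sum_le p n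
    rw [ds]
    omega
  have hprod : padicValNat p (∏ a ∈ S, (κ a).factorial) =
      ∑ a ∈ S, padicValNat p (κ a).factorial := by
    induction S using Finset.induction_on with
    | empty => simp
    | insert a S ha ih =>
      rw [prod_insert ha, sum_insert ha, padicValNat.mul (Nat.factorial_ne_zero _)
        (prod_ne_zero_iff.2 fun _ _ => Nat.factorial_ne_zero _), ih]
  have hm : Nat.multinomial S κ ≠ 0 := (Nat.multinomial_pos S κ).ne'
  have h1 : padicValNat p (∑ a ∈ S, κ a).factorial =
      ∑ a ∈ S, padicValNat p (κ a).factorial + padicValNat p (Nat.multinomial S κ) := by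
    rw [← Nat.multinomial_spec S κ, padicValNat.mul (prod_ne_zero_iff.2 fun _ _ =>
      Nat.factorial_ne_zero _) hm, hprod]
  have h2 := hL (∑ a ∈ S, κ a)
  rw [h1, mul_add, mul_sum] at h2
  have h3 : ∑ a ∈ S, ((p - 1) * padicValNat p (κ a).factorial + ds p (κ a)) = ∑ a ∈ S, κ a :=
    sum_congr rfl fun a _ => hL _
  rw [sum_add_distrib] at h3
  omega

end Fermat.Agent.Cor.AxK
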