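import Fermat.Agent.Corollaries.AxK.Digits

/-!
# The theorem of Ax and Katz: the inequality

The exponents which occur in the expansion of the counting function satisfy the estimate on which
the theorem rests.
-/

namespace Fermat.Agent.Cor.AxK

open Finset

theorem main_ineq {p f : ℕ} [hp : Fact p.Prime] (hf : 0 < f) {ι σ : Type*} [Fintype ι] [Fintype σ]
    (S : ι → Finset (σ →₀ ℕ)) (κ : ι → (σ →₀ ℕ) → ℕ) (d : ι → ℕ) {D μ e : ℕ} (hD : 0 < D)
    (hdD : ∀ j, d j ≤ D) (hS : ∀ j, ∀ a ∈ S j, ∑ i, a i ≤ d j)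
    (hM : ∀ j, ∑ a ∈ S j, κ j a = p ^ e * (p ^ f - 1)) (u : σ → ℕ)
    (hu : ∀ i, u i = ∑ j, ∑ a ∈ S j, a i * κ j a) (hdiv : ∀ i, p ^ f - 1 ∣ u i)
    (h : μ * D + ∑ j, d j < Fintype.card σ) :
    f * (μ + 1) ≤ ∑ j, padicValNat p (Nat.multinomial (S j) (κ j)) +
      f * (univ.filter fun i => u i = 0).card := by
  classical
  have hp2 : 2 ≤ p := hp.out.two_le
  set Q := p ^ f - 1 with hQ
  have hpf : p ≤ p ^ f := Nat.le_self_pow hf.ne' p
  have hQ0 : 0 < Q := by omega
  set M := p ^ e * Q with hMdef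
  have hM0 : 0 < M := Nat.mul_pos (Nat.pow_pos (by omega)) hQ0
  -- the sums of weights
  set T : ι → ℕ → ℕ := fun j r => ∑ a ∈ S j, wt p f r (κ j a) with hT
  have hTdvd : ∀ j r, Q ∣ T j r := by
    intro j r
    have h1 : T j r ≡ p ^ r * ∑ a ∈ S j, κ j a [MOD Q] := by
      rw [mul_sum]
      have h0 : ∀ S' : Finset (σ →₀ ℕ),
          ∑ a ∈ S', wt p f r (κ j a) ≡ ∑ a ∈ S', p ^ r * κ j a [MOD Q] := by
        intro S'
        induction S' using Finset.induction_on with
        | empty => exact Nat.ModEq.refl _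
        | insert a S' ha ih =>
          rw [sum_insert ha, sum_insert ha]
          exact (wt_modEq hp2 r _).add ih
      exact h0 _
    rw [hM] at h1
    exact (Nat.modEq_zero_iff_dvd).1 (h1.trans (Nat.modEq_zero_iff_dvd.2
      ((Dvd.intro_left _ rfl : Q ∣ M).mul_left _)))
  have hTge : ∀ j r, Q ≤ T j r := by
    intro j r
    have h1 := wt_sum_le (f := f) hp2 (S j) (κ j) r
    rw [hM] at h1
    exact (le_wt hp2 hM0 (Dvd.intro_left _ rfl) r).trans h1
  choose t ht using hTdvd
  have ht1 : ∀ j r, 1 ≤ t j r := by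
    intro j r
    have h1 := hTge j r
    rw [ht j r] at h1
    by_contra h2
    have h3 : t j r = 0 := by omega
    rw [h3, mul_zero] at h1
    omega
  set nz := (univ.filter fun i => ¬ u i = 0).card with hnz
  set z := (univ.filter fun i => u i = 0).card with hz
  have hzn : z + nz = Fintype.card σ := by
    rw [hz, hnz, card_filter_add_card_filter_not, card_univ]
  -- the inequality for every shift
  have h1 : ∀ r, nz ≤ ∑ j, d j * t j r := by
    intro r
    have e1 : Q * nz ≤ ∑ i, wt p f r (u i) := by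
      calc Q * nz = ∑ i ∈ univ.filter (fun i => ¬ u i = 0), Q := by
            rw [sum_const, smul_eq_mul, mul_comm]
        _ ≤ ∑ i ∈ univ.filter (fun i => ¬ u i = 0), wt p f r (u i) :=
            sum_le_sum fun i hi => le_wt hp2 (Nat.pos_of_ne_zero (mem_filter.1 hi).2) (hdiv i) r
        _ ≤ _ := sum_le_sum_of_subset (filter_subset _ _)
    have e2 : ∀ i, wt p f r (u i) ≤ ∑ j, ∑ a ∈ S j, a i * wt p f r (κ j a) := by
      intro i
      rw [hu i]
      refine (wt_sum_le hp2 _ _ r).trans (sum_le_sum fun j _ => ?_)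
      exact (wt_sum_le hp2 _ _ r).trans (sum_le_sum fun a _ => wt_mul_le hp2 _ _ r)
    have e3 : ∑ i, ∑ j, ∑ a ∈ S j, a i * wt p f r (κ j a) ≤ ∑ j, d j * T j r := by
      rw [sum_comm]
      refine sum_le_sum fun j _ => ?_
      rw [sum_comm, hT, mul_sum]
      refine sum_le_sum fun a ha => ?_
      rw [← sum_mul]
      exact Nat.mul_le_mul_right _ (hS j a ha)
    have e4 : Q * nz ≤ Q * ∑ j, d j * t j r := by
      refine e1.trans ((sum_le_sum fun i _ => e2 i).trans (e3.trans (le_of_eq ?_)))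
      rw [mul_sum]
      refine sum_congr rfl fun j _ => ?_
      rw [ht j r]; ring
    exact Nat.le_of_mul_le_mul_left e4 hQ0
  have h2 : ∀ r, μ + 1 ≤ ∑ j, (t j r - 1) + z := by
    intro r
    by_contra hcon
    have hcon' : ∑ j, (t j r - 1) + z ≤ μ := by omega
    have e1 : ∑ j, d j * t j r ≤ ∑ j, d j + D * ∑ j, (t j r - 1) := by
      rw [mul_sum, ← sum_add_distrib]
      refine sum_le_sum fun j _ => ?_
      obtain ⟨c, hc⟩ : ∃ c, t j r = c + 1 := ⟨t j r - 1, by have := ht1 j r; omega⟩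
      rw [hc, Nat.add_sub_cancel, mul_add, mul_one, add_comm]
      exact Nat.add_le_add_left (Nat.mul_le_mul_right _ (hdD j)) _
    have e2 := Nat.mul_le_mul_left D hcon'
    rw [mul_add] at e2
    have e3 : z ≤ D * z := Nat.le_mul_of_pos_left z hD
    have e4 := h1 r
    have e5 : D * μ = μ * D := mul_comm _ _
    omega
  -- the sum over the shifts
  have h3 : ∀ j, ∑ r ∈ range f, (t j r - 1) ≤ padicValNat p (Nat.multinomial (S j) (κ j)) := by
    intro j
    set v := padicValNat p (Nat.multinomial (S j) (κ j)) with hv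
    set G := ∑ r ∈ range f, p ^ r with hG
    have hGQ : (p - 1) * G = Q := by
      have := Nat.geomSum_eq hp2 f
      rw [hG, this, Nat.mul_div_cancel']
      simpa using Nat.sub_dvd_pow_sub_pow p 1 f
    have e1 : ∑ r ∈ range f, T j r = (∑ a ∈ S j, ds p (κ j a)) * G := by
      rw [hT, sum_comm, sum_mul]
      exact sum_congr rfl fun a _ => sum_wt _
    have e2 := sum_ds (p := p) (S j) (κ j)
    rw [hM j, ← hv] at e2
    have e3 : ds p M ≤ f * (p - 1) := by
      rw [hMdef, ds_pow_mul hp2 e hQ0]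
      exact ds_le_of_lt hp2 (by omega)
    have e4 : Q * ∑ r ∈ range f, t j r ≤ Q * (f + v) := by
      calc Q * ∑ r ∈ range f, t j r = ∑ r ∈ range f, T j r := by
            rw [mul_sum]; exact sum_congr rfl fun r _ => (ht j r).symm
        _ = (ds p M + (p - 1) * v) * G := by rw [e1, e2]
        _ ≤ (f * (p - 1) + (p - 1) * v) * G := Nat.mul_le_mul_right _ (by omega)
        _ = Q * (f + v) := by rw [← hGQ]; ring
    have e5 := Nat.le_of_mul_le_mul_left e4 hQ0
    have e6 : ∑ r ∈ range f, (t j r - 1) + f = ∑ r ∈ range f, t j r := by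
      have e7 : ∑ r ∈ range f, t j r = ∑ r ∈ range f, ((t j r - 1) + 1) :=
        sum_congr rfl fun r _ => (Nat.sub_add_cancel (ht1 j r)).symm
      rw [e7, sum_add_distrib]
      simp
    omega
  calc f * (μ + 1) = ∑ r ∈ range f, (μ + 1) := by simp
    _ ≤ ∑ r ∈ range f, (∑ j, (t j r - 1) + z) := sum_le_sum fun r _ => h2 r
    _ = ∑ j, ∑ r ∈ range f, (t j r - 1) + f * z := by
        rw [sum_add_distrib, sum_comm]; simp
    _ ≤ _ := Nat.add_le_add_right (sum_le_sum fun j _ => h3 j) _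

end Fermat.Agent.Cor.AxK
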