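import Fermat.Agent.Corollaries.AxK.Ineq

/-!
# The theorem of Ax and Katz

`K` a finite field with `q` elements, `f_j ∈ K[X_1, …, X_n]` of degrees `≤ d_j ≤ D`.  If
`μ D + ∑ d_j < n`, then `q ^ (μ + 1)` divides the number of common zeros of the `f_j` in `K ^ n`
(J. Ax 1964 for one polynomial, N. Katz 1971).
-/

namespace Fermat.Agent.Cor.AxK

open Finset WittVector

section

variable (p : ℕ) [hp : Fact p.Prime] {K : Type*} [Field K] [Fintype K] [CharP K p]

local notation "𝕎" => WittVector p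

/-- reduction modulo `p` -/
noncomputable abbrev c0 : 𝕎 K →+* K := WittVector.constantCoeff

/-- the Teichmüller lift -/
noncomputable abbrev τ : K →* 𝕎 K := WittVector.teichmuller p

omit [Fintype K] [CharP K p] in
theorem c0_τ (x : K) : c0 p (τ p x) = x := rfl

theorem dvd_of_c0 {z : 𝕎 K} (h : c0 p z = 0) : (p : 𝕎 K) ∣ z := by
  by_cases hz : z = 0
  · rw [hz]; exact dvd_zero _
  obtain ⟨m, b, hb, hzb⟩ := WittVector.exists_eq_pow_p_mul z hz
  rcases Nat.eq_zero_or_pos m with rfl | hm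
  · rw [pow_zero, one_mul] at hzb
    exact absurd (by rw [← hzb]; exact h) hb
  · rw [hzb]
    exact (dvd_pow_self _ hm.ne').mul_right _

theorem pow_sub_one_dvd {z : 𝕎 K} (h : c0 p z ≠ 0) (e : ℕ) :
    (p : 𝕎 K) ^ (e + 1) ∣ z ^ (p ^ e * (Fintype.card K - 1)) - 1 := by
  have h1 : (p : 𝕎 K) ∣ z ^ (Fintype.card K - 1) - 1 := by
    apply dvd_of_c0
    rw [map_sub, map_pow, map_one, FiniteField.pow_card_sub_one_eq_one _ h, sub_self]
  have h2 := dvd_sub_pow_of_dvd_sub h1 e
  rwa [one_pow, ← pow_mul, mul_comm (Fintype.card K - 1)] at h2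

theorem pow_dvd_of_c0 {z : 𝕎 K} (h : c0 p z = 0) (e : ℕ) :
    (p : 𝕎 K) ^ (e + 1) ∣ z ^ (p ^ e * (Fintype.card K - 1)) := by
  have h1 : e + 1 ≤ p ^ e * (Fintype.card K - 1) := by
    have h2 : e < p ^ e := Nat.lt_pow_self hp.out.one_lt
    have h3 : 1 < Fintype.card K := Fintype.one_lt_card
    calc e + 1 ≤ p ^ e * 1 := by omega
      _ ≤ _ := Nat.mul_le_mul_left _ (by omega)
  exact (pow_dvd_pow _ h1).trans (pow_dvd_pow_of_dvd (dvd_of_c0 p h) _)

omit [Fintype K] in
theorem natCast_dvd {k n : ℕ} (h : (p : 𝕎 K) ^ k ∣ (n : 𝕎 K)) : p ^ k ∣ n := by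
  induction k generalizing n with
  | zero => simp
  | succ k ih =>
    obtain ⟨w, hw⟩ := h
    have h1 : p ∣ n := by
      rw [← CharP.cast_eq_zero_iff K p n]
      have h2 : c0 p ((n : 𝕎 K)) = 0 := by
        rw [hw, map_mul, map_pow, map_natCast, CharP.cast_eq_zero K p, zero_pow (by omega),
          zero_mul]
      rwa [map_natCast] at h2
    obtain ⟨n', rfl⟩ := h1
    rw [pow_succ']
    refine mul_dvd_mul_left p (ih ⟨w, ?_⟩)
    have hp0 : (p : 𝕎 K) ≠ 0 := WittVector.p_nonzero p K
    apply mul_left_cancel₀ hp0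
    rw [← mul_assoc, ← pow_succ', ← hw]
    push_cast
    ring

omit [CharP K p] in
/-- power sums of Teichmüller representatives -/
theorem sum_τ_zero : ∑ y : K, τ p y ^ 0 = (Fintype.card K : 𝕎 K) := by
  simp

theorem sum_τ_pow {u : ℕ} (h : ¬ Fintype.card K - 1 ∣ u) : ∑ y : K, τ p y ^ u = 0 := by
  rw [← FiniteField.forall_pow_eq_one_iff K u] at h
  push Not at h
  obtain ⟨g, hg⟩ := h
  have h1 : τ p (g : K) ^ u * ∑ y : K, τ p y ^ u = ∑ y : K, τ p y ^ u := by
    rw [mul_sum]
    have h2 := Equiv.sum_comp (Units.mulLeft g) fun y : K => τ p y ^ u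
    rw [← h2]
    refine sum_congr rfl fun y _ => ?_
    rw [Units.mulLeft_apply, map_mul, mul_pow]
  have h2 : (τ p (g : K) ^ u - 1) * ∑ y : K, τ p y ^ u = 0 := by
    rw [sub_mul, h1, one_mul, sub_self]
  refine (mul_eq_zero.1 h2).resolve_left fun h3 => hg ?_
  have h4 := congrArg (c0 p) (sub_eq_zero.1 h3)
  rw [map_pow, c0_τ, map_one] at h4
  apply Units.ext
  push_cast
  exact h4

variable {σ : Type*} [Fintype σ]

/-- the lift of the value of a polynomial -/
noncomputable def F (f : MvPolynomial σ K) (x : σ → K) : 𝕎 K :=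
  ∑ a ∈ f.support, τ p (f.coeff a) * ∏ i, τ p (x i) ^ a i

omit [Fintype K] [CharP K p] in
theorem c0_F (f : MvPolynomial σ K) (x : σ → K) : c0 p (F p f x) = MvPolynomial.eval x f := by
  rw [F, map_sum, MvPolynomial.eval_eq']
  refine sum_congr rfl fun a _ => ?_
  rw [map_mul, map_prod, c0_τ]
  congr 1
  refine prod_congr rfl fun i _ => ?_
  rw [map_pow, c0_τ]

/-- the key divisibility -/
theorem key [DecidableEq σ] {ι : Type*} [Fintype ι] {n : ℕ} (hn : 0 < n) (hq : Fintype.card K = p ^ n)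
    (f : ι → MvPolynomial σ K) (d : ι → ℕ) {D μ e : ℕ} (hD : 0 < D) (hdD : ∀ j, d j ≤ D)
    (hd : ∀ j, (f j).totalDegree ≤ d j) (h : μ * D + ∑ j, d j < Fintype.card σ)
    (he : e + 1 = n * (μ + 1)) :
    (p : 𝕎 K) ^ (e + 1) ∣ ∑ x : σ → K, ∏ j, F p (f j) x ^ (p ^ e * (Fintype.card K - 1)) := by
  classical
  set M := p ^ e * (Fintype.card K - 1) with hM
  have h1 : ∀ x : σ → K, ∏ j, F p (f j) x ^ M =
      ∑ κ ∈ Fintype.piFinset fun j => (f j).support.piAntidiag M,
        ((∏ j, ((Nat.multinomial (f j).support (κ j) : ℕ) : 𝕎 K)) *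
          ∏ j, ∏ a ∈ (f j).support, τ p ((f j).coeff a) ^ κ j a) *
        ∏ i, τ p (x i) ^ (∑ j, ∑ a ∈ (f j).support, a i * κ j a) := by
    intro x
    simp only [F]
    simp_rw [Finset.sum_pow_eq_sum_piAntidiag]
    rw [Finset.prod_univ_sum]
    refine sum_congr rfl fun κ _ => ?_
    rw [prod_mul_distrib, mul_assoc]
    congr 1
    simp_rw [mul_pow, prod_mul_distrib]
    congr 1
    simp_rw [← prod_pow, ← pow_mul]
    have h2 : ∀ i, τ p (x i) ^ (∑ j, ∑ a ∈ (f j).support, a i * κ j a) =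
        ∏ j, ∏ a ∈ (f j).support, τ p (x i) ^ (a i * κ j a) := by
      intro i
      rw [← prod_pow_eq_pow_sum]
      refine prod_congr rfl fun j _ => ?_
      rw [prod_pow_eq_pow_sum]
    simp_rw [h2]
    rw [prod_comm (s := univ) (t := univ)]
    refine prod_congr rfl fun j _ => ?_
    rw [prod_comm]
  simp_rw [h1]
  rw [sum_comm]
  refine dvd_sum fun κ hκ => ?_
  rw [Fintype.mem_piFinset] at hκ
  rw [← mul_sum]
  set u : σ → ℕ := fun i => ∑ j, ∑ a ∈ (f j).support, a i * κ j a with hu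
  have h2 : ∑ x : σ → K, ∏ i, τ p (x i) ^ u i = ∏ i, ∑ y : K, τ p y ^ u i := by
    rw [Finset.prod_univ_sum, Fintype.piFinset_univ]
  rw [h2]
  by_cases hdiv : ∀ i, Fintype.card K - 1 ∣ u i
  swap
  · push Not at hdiv
    obtain ⟨i, hi⟩ := hdiv
    rw [prod_eq_zero (mem_univ i) (sum_τ_pow p hi), mul_zero]
    exact dvd_zero _
  rw [hq] at hdiv
  have h3 := main_ineq (p := p) (f := n) hn (fun j => (f j).support) κ d (e := e) hD hdD
    (fun j a ha => by
      have h4 := MvPolynomial.le_totalDegree ha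
      rw [Finsupp.sum_fintype _ _ (fun _ => rfl)] at h4
      exact h4.trans (hd j))
    (fun j => by rw [(Finset.mem_piAntidiag.1 (hκ j)).1, hM, hq]) u (fun i => rfl) hdiv h
  rw [he]
  refine (pow_dvd_pow _ h3).trans ?_
  rw [pow_add]
  refine mul_dvd_mul ((?_ : _ ∣ _).mul_right _) ?_
  · rw [← prod_pow_eq_pow_sum]
    refine prod_dvd_prod_of_dvd _ _ fun j _ => ?_
    have h4 : p ^ padicValNat p (Nat.multinomial (f j).support (κ j)) ∣
        Nat.multinomial (f j).support (κ j) := pow_padicValNat_dvd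
    obtain ⟨c, hc⟩ := h4
    refine ⟨(c : 𝕎 K), ?_⟩
    conv_lhs => rw [hc]
    push_cast
    rfl
  · have h4 : (p : 𝕎 K) ^ (n * (univ.filter fun i => u i = 0).card) =
        ∏ i, if u i = 0 then (p : 𝕎 K) ^ n else 1 := by
      rw [prod_ite, prod_const, prod_const_one, mul_one, pow_mul]
    rw [h4]
    refine prod_dvd_prod_of_dvd _ _ fun i _ => ?_
    split_ifs with hi
    · rw [hi, sum_τ_zero, hq]
      push_cast
      exact dvd_rfl
    · exact one_dvd _

end

/-- **The theorem of Ax (1964) and Katz (1971)**: `K` a finite field with `q` elements, `f_j`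
polynomials in `n` variables of degrees at most `d_j ≤ D`, `0 < D`; if `μ D + ∑ d_j < n`, then
`q ^ (μ + 1)` divides the number of common zeros in `K ^ n`. -/
theorem ax_katz {K : Type*} [Field K] [Fintype K] {σ ι : Type*} [Fintype σ] [Fintype ι]
    (f : ι → MvPolynomial σ K) (d : ι → ℕ) {D μ : ℕ} (hD : 0 < D) (hdD : ∀ j, d j ≤ D)
    (hd : ∀ j, (f j).totalDegree ≤ d j) (h : μ * D + ∑ j, d j < Fintype.card σ) :
    Fintype.card K ^ (μ + 1) ∣ Nat.card {x : σ → K // ∀ j, MvPolynomial.eval x (f j) = 0} := by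
  classical
  obtain ⟨p, hpK⟩ := CharP.exists K
  obtain ⟨n, hp', hq⟩ := FiniteField.card K p
  have hp : Fact p.Prime := ⟨hp'⟩
  have hn : 0 < (n : ℕ) := n.pos
  obtain ⟨e, he⟩ : ∃ e, e + 1 = (n : ℕ) * (μ + 1) :=
    ⟨n * (μ + 1) - 1, Nat.sub_add_cancel (Nat.mul_pos hn (Nat.succ_pos μ))⟩
  rw [hq, ← pow_mul, ← he]
  apply natCast_dvd p (K := K)
  set M := p ^ e * (Fintype.card K - 1) with hM
  -- the count
  have h1 : ((Nat.card {x : σ → K // ∀ j, MvPolynomial.eval x (f j) = 0} : ℕ) : WittVector p K) =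
      ∑ x : σ → K, if ∀ j, MvPolynomial.eval x (f j) = 0 then 1 else 0 := by
    rw [Nat.card_eq_fintype_card, Fintype.card_subtype, sum_boole]
  have h2 : (p : WittVector p K) ^ (e + 1) ∣
      (∑ x : σ → K, if ∀ j, MvPolynomial.eval x (f j) = 0 then 1 else 0) -
        ∑ x : σ → K, ∏ j, (1 - F p (f j) x ^ M) := by
    rw [← sum_sub_distrib]
    refine dvd_sum fun x _ => ?_
    have hc : ∀ j, (p : WittVector p K) ^ (e + 1) ∣
        (1 - F p (f j) x ^ M) - if MvPolynomial.eval x (f j) = 0 then 1 else 0 := by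
      intro j
      split_ifs with hj
      · rw [sub_sub_cancel_left]
        exact (dvd_neg).2 (pow_dvd_of_c0 p (by rw [c0_F, hj]) e)
      · rw [sub_zero, ← dvd_neg, neg_sub]
        exact pow_sub_one_dvd p (by rwa [c0_F]) e
    have hprod : (p : WittVector p K) ^ (e + 1) ∣ (∏ j, (1 - F p (f j) x ^ M)) -
        ∏ j, if MvPolynomial.eval x (f j) = 0 then (1 : WittVector p K) else 0 := by
      have h0 : ∀ s : Finset ι, (p : WittVector p K) ^ (e + 1) ∣
          (∏ j ∈ s, (1 - F p (f j) x ^ M)) -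
            ∏ j ∈ s, if MvPolynomial.eval x (f j) = 0 then (1 : WittVector p K) else 0 := by
        intro s
        induction s using Finset.induction_on with
        | empty => simp
        | insert j s hj ih =>
          rw [prod_insert hj, prod_insert hj]
          have e1 : ∀ A B C E : WittVector p K, A * B - C * E = (A - C) * B + C * (B - E) := by
            intro A B C E; ring
          rw [e1]
          exact dvd_add ((hc j).mul_right _) (ih.mul_left _)
      exact h0 univ
    have hite : (∏ j, if MvPolynomial.eval x (f j) = 0 then (1 : WittVector p K) else 0) =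
        if ∀ j, MvPolynomial.eval x (f j) = 0 then 1 else 0 := by
      split_ifs with hx
      · exact prod_eq_one fun j _ => by rw [if_pos (hx j)]
      · push Not at hx
        obtain ⟨j, hj⟩ := hx
        exact prod_eq_zero (mem_univ j) (by rw [if_neg hj])
    rw [hite] at hprod
    rw [← dvd_neg, neg_sub]
    exact hprod
  have h3 : (p : WittVector p K) ^ (e + 1) ∣ ∑ x : σ → K, ∏ j, (1 - F p (f j) x ^ M) := by
    have h4 : ∀ x : σ → K, ∏ j, (1 - F p (f j) x ^ M) =
        ∑ J ∈ (univ : Finset ι).powerset, (-1) ^ J.card * ∏ j ∈ J, F p (f j) x ^ M := by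
      intro x
      simp_rw [sub_eq_add_neg]
      rw [prod_one_add]
      refine sum_congr rfl fun J _ => ?_
      rw [prod_neg]
    simp_rw [h4]
    rw [sum_comm]
    refine dvd_sum fun J _ => ?_
    rw [← mul_sum]
    refine Dvd.dvd.mul_left ?_ _
    have h5 := key p hn hq (fun j : J => f j) (fun j : J => d j) hD (fun j => hdD j)
      (fun j => hd j) (μ := μ) (e := e) (by
        refine lt_of_le_of_lt (Nat.add_le_add_left ?_ _) h
        rw [Finset.sum_coe_sort J d]
        exact sum_le_sum_of_subset (subset_univ _)) he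
    have h6 : ∑ x : σ → K, ∏ j ∈ J, F p (f j) x ^ M =
        ∑ x : σ → K, ∏ j : J, F p (f j) x ^ (p ^ e * (Fintype.card K - 1)) :=
      sum_congr rfl fun x _ => (Finset.prod_coe_sort J fun j => F p (f j) x ^ M).symm
    rw [h6]
    exact h5
  rw [h1]
  have h6 := dvd_add h2 h3
  rwa [sub_add_cancel] at h6

/-- **Ax (1964)**, one polynomial: if `b d < n`, then `q ^ b` divides the number of zeros of a
polynomial of degree at most `d` in `n` variables, `0 < d`. -/
theorem ax {K : Type*} [Field K] [Fintype K] {σ : Type*} [Fintype σ] (f : MvPolynomial σ K)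
    {d b : ℕ} (hd0 : 0 < d) (hd : f.totalDegree ≤ d) (h : b * d < Fintype.card σ) :
    Fintype.card K ^ b ∣ Nat.card {x : σ → K // MvPolynomial.eval x f = 0} := by
  rcases b with _ | μ
  · simp
  have h1 := ax_katz (fun _ : Unit => f) (fun _ => d) (μ := μ) hd0 (fun _ => le_rfl) (fun _ => hd)
    (by rw [add_mul, one_mul] at h; simpa using h)
  simpa using h1

/-- Warning's theorem with `q` instead of the characteristic (Ax 1964): if the sum of the degrees is
less than the number of variables, then `q` divides the number of common zeros. -/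
theorem card_dvd_of_sum_lt {K : Type*} [Field K] [Fintype K] {σ ι : Type*} [Fintype σ]
    [Fintype ι] (f : ι → MvPolynomial σ K) (h : ∑ j, (f j).totalDegree < Fintype.card σ) :
    Fintype.card K ∣ Nat.card {x : σ → K // ∀ j, MvPolynomial.eval x (f j) = 0} := by
  have h1 := ax_katz f (fun j => (f j).totalDegree) (D := 1 + ∑ j, (f j).totalDegree) (μ := 0)
    (by omega)
    (fun j => (single_le_sum (f := fun j => (f j).totalDegree) (fun _ _ => Nat.zero_le _)
      (mem_univ j)).trans (by omega))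
    (fun j => le_rfl) (by rwa [zero_mul, zero_add])
  rwa [zero_add, pow_one] at h1

end Fermat.Agent.Cor.AxK
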